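import Mathlib
import Fermat.Agent.S28.Defs
import Fermat.Agent.S28.Basis
import Fermat.Agent.S28.H88.PrimeLevel

/-!
# Adapter `CoreData → BasisData` (route (a) of the S28 plan)
-/

set_option autoImplicit false

noncomputable section

open ModularCurve HahnSeries Polynomial

namespace Fermat.Agent.S28.H145

/-! ### (B1): integrality of the elements of `ℤ[j(q^d) : d ∣ N]` over `ℤ[j]` -/

theorem isIntegralElem_of_mem_closure (N : ℕ)
    (hint : ∀ (d : ℕ) [NeZero d], d ∣ N →
      ∃ P : Polynomial (Polynomial ℤ), P.Monic ∧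
        P.eval₂ (evalAt (jqModC ℤ)) (qExpand ℤ d (jqModC ℤ)) = 0)
    {y : LaurentSeries ℤ} (hy : y ∈ Subring.closure (intDivisorExpansions N)) :
    (evalAt (jqModC ℤ)).IsIntegralElem y := by
  induction hy using Subring.closure_induction with
  | mem x hx =>
    obtain ⟨d, hd, hdN, rfl⟩ := hx
    have := hd
    obtain ⟨P, hP, hroot⟩ := hint d hdN
    exact ⟨P, hP, hroot⟩
  | zero => exact RingHom.isIntegralElem_zero _
  | one => exact RingHom.isIntegralElem_one _
  | add x y _ _ hx hy => exact RingHom.IsIntegralElem.add _ hx hy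
  | neg x _ hx => exact RingHom.IsIntegralElem.neg _ hx
  | mul x y _ _ hx hy => exact RingHom.IsIntegralElem.mul _ hx hy

/-! ### (B2): clearing denominators -/

section Generic

variable (k : Type*) [Field k]

/-- Evaluation `k[X] → k((q))`, `X ↦ j`, as a ring hom (defined for a generic field, so that
no instance diamond can occur at `k = ℚ`). -/
def evk : Polynomial k →+* LaurentSeries k :=
  (Polynomial.aeval (jqModC k) : Polynomial k →ₐ[k] LaurentSeries k).toRingHom

theorem evk_apply (P : Polynomial k) : evk k P = Polynomial.aeval (jqModC k) P := rfl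

theorem evk_X : evk k Polynomial.X = jqModC k := by
  rw [evk_apply, Polynomial.aeval_X]

theorem evk_injective : Function.Injective (evk k) :=
  h88_aeval_jqModC_injective k

theorem evk_comp_map :
    (evk k).comp (Polynomial.mapRingHom (Int.castRingHom k)) = evalAt (jqModC k) := by
  refine Polynomial.ringHom_ext' (Subsingleton.elim _ _) ?_
  simp [evalAt, evk_apply]

theorem evk_map_intCast (P : Polynomial ℤ) :
    evk k (P.map (Int.castRingHom k)) = evalAt (jqModC k) P := by
  rw [← evk_comp_map]; rfl

theorem evk_mem_jField (P : Polynomial k) : evk k P ∈ jField k := by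
  have : evk k P ∈ Algebra.adjoin k {jqModC k} := by
    rw [Algebra.adjoin_singleton_eq_range_aeval]
    exact ⟨P, rfl⟩
  exact IntermediateField.algebra_adjoin_le_adjoin k _ this

variable {k} in
/-- Every element of `k(j)` is a quotient of two polynomials in `j`. -/
theorem exists_poly_fraction {c : LaurentSeries k} (hc : c ∈ jField k) :
    ∃ r s : Polynomial k, s ≠ 0 ∧ evk k s * c = evk k r := by
  obtain ⟨r, s, rfl⟩ := (IntermediateField.mem_adjoin_simple_iff k _).mp hc
  by_cases hs : Polynomial.aeval (jqModC k) s = 0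
  · refine ⟨0, 1, one_ne_zero, ?_⟩
    rw [hs, div_zero, mul_zero, map_zero]
  · refine ⟨r, s, fun h => hs (by rw [h, map_zero]), ?_⟩
    rw [evk_apply, evk_apply, mul_div_cancel₀ _ hs]

end Generic

theorem evalAt_C {A : Type*} [CommRing A] (y : LaurentSeries A) (m : ℤ) :
    evalAt y (Polynomial.C m) = (m : LaurentSeries A) :=
  eq_intCast ((evalAt y).comp Polynomial.C) m

/-- Every element of `ℚ(j)` is a quotient of two integral polynomials in `j`. -/
theorem exists_int_fraction {c : LaurentSeries ℚ} (hc : c ∈ jField ℚ) :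
    ∃ a b : Polynomial ℤ, b ≠ 0 ∧ evalAt (jqModC ℚ) b * c = evalAt (jqModC ℚ) a := by
  obtain ⟨r, s, hs0, hrs⟩ := exists_poly_fraction hc
  obtain ⟨mr, hmr, hR⟩ := IsLocalization.integerNormalization_spec (nonZeroDivisors ℤ) r
  obtain ⟨ms, hms, hS⟩ := IsLocalization.integerNormalization_spec (nonZeroDivisors ℤ) s
  set R := IsLocalization.integerNormalization (nonZeroDivisors ℤ) r with hRdef
  set S := IsLocalization.integerNormalization (nonZeroDivisors ℤ) s with hSdef
  have hmr0 : mr ≠ 0 := nonZeroDivisors.ne_zero hmr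
  have hms0 : ms ≠ 0 := nonZeroDivisors.ne_zero hms
  have hS0 : S ≠ 0 := by
    intro h
    rw [h, Polynomial.map_zero] at hS
    exact hs0 ((smul_eq_zero.mp hS.symm).resolve_left hms0)
  rw [zsmul_eq_mul, algebraMap_int_eq] at hR hS
  have hRa : evalAt (jqModC ℚ) R = (mr : LaurentSeries ℚ) * evk ℚ r := by
    rw [← evk_map_intCast, hR, map_mul, map_intCast]
  have hSa : evalAt (jqModC ℚ) S = (ms : LaurentSeries ℚ) * evk ℚ s := by
    rw [← evk_map_intCast, hS, map_mul, map_intCast]
  refine ⟨Polynomial.C ms * R, Polynomial.C mr * S,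
    mul_ne_zero (Polynomial.C_ne_zero.mpr hmr0) hS0, ?_⟩
  rw [map_mul, map_mul, evalAt_C, evalAt_C, hRa, hSa]
  linear_combination ((mr : LaurentSeries ℚ) * (ms : LaurentSeries ℚ)) * hrs

/-! ### (B3): descent of linear independence -/

section B3

variable (ℓ : ℕ) [Fact ℓ.Prime] (K : Type) [Field K]

theorem coeffMap_aeval_jqModC (φ : ZMod ℓ →+* K) (f : Polynomial (ZMod ℓ)) :
    coeffMap φ (Polynomial.aeval (jqModC (ZMod ℓ)) f) = evk K (f.map φ) := by
  have h : (coeffMap φ).comp (Polynomial.aeval (jqModC (ZMod ℓ)) :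
        Polynomial (ZMod ℓ) →ₐ[ZMod ℓ] LaurentSeries (ZMod ℓ)).toRingHom =
      (evk K).comp (Polynomial.mapRingHom φ) := by
    refine Polynomial.ringHom_ext (fun a => ?_) ?_
    · simp only [RingHom.comp_apply, AlgHom.toRingHom_eq_coe, RingHom.coe_coe,
        Polynomial.aeval_C, Polynomial.coe_mapRingHom, Polynomial.map_C, evk_apply]
      rw [algebraMap_laurentSeries_eq_single, algebraMap_laurentSeries_eq_single,
        coeffMap_single]
    · simp only [RingHom.comp_apply, AlgHom.toRingHom_eq_coe, RingHom.coe_coe,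
        Polynomial.aeval_X, Polynomial.coe_mapRingHom, Polynomial.map_X, evk_apply]
      exact coeffMap_jqModC φ
  exact congrFun (congrArg DFunLike.coe h) f

end B3

/-- **Adapter**: `CoreData N K` (for any field `K` of characteristic `ℓ`) gives `BasisData N ℓ`. -/
theorem basisData_of_coreData (N : ℕ) [NeZero N] (ℓ : ℕ) [Fact ℓ.Prime]
    (K : Type) [Field K] [CharP K ℓ] (h : CoreData N K) : BasisData N ℓ := by
  classical
  obtain ⟨n, y, hy_mem, hspan, hind⟩ := h.exists_basis
  refine ⟨n, y, ?_, ?_, ?_⟩
  · -- (B1)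
    intro i
    obtain ⟨P, hP, hroot⟩ := isIntegralElem_of_mem_closure N (fun d _ hd => h.integral d hd)
      (hy_mem i)
    refine ⟨1, P, ?_, ?_, hroot⟩
    · exact fun h1 => (Fact.out : ℓ.Prime).one_lt.ne' (Nat.dvd_one.mp h1)
    · rw [hP.leadingCoeff]; simp
  · -- (B2)
    intro x hx
    have hx' := hspan x hx
    rw [Submodule.mem_span_range_iff_exists_fun] at hx'
    obtain ⟨c, hc⟩ := hx'
    have hfrac : ∀ i, ∃ a b : Polynomial ℤ, b ≠ 0 ∧
        evalAt (jqModC ℚ) b * (c i : LaurentSeries ℚ) = evalAt (jqModC ℚ) a :=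
      fun i => exists_int_fraction (c i).2
    choose a b hb hab using hfrac
    refine ⟨∏ i, b i, fun i => a i * ∏ i' ∈ Finset.univ.erase i, b i', ?_, ?_⟩
    · exact Finset.prod_ne_zero_iff.mpr fun i _ => hb i
    · rw [← hc, Finset.mul_sum]
      refine Finset.sum_congr rfl fun i _ => ?_
      rw [← Finset.mul_prod_erase Finset.univ b (Finset.mem_univ i), map_mul, map_mul]
      have : (c i • coeffMap (Int.castRingHom ℚ) (y i) : LaurentSeries ℚ) =
          (c i : LaurentSeries ℚ) * coeffMap (Int.castRingHom ℚ) (y i) := rfl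
      rw [this, ← hab i]
      ring
  · -- (B3)
    intro f hf
    set φ : ZMod ℓ →+* K := ZMod.castHom (dvd_refl ℓ) K with hφ
    have hφinj : Function.Injective φ := φ.injective
    have hf' := congrArg (coeffMap φ) hf
    rw [map_sum, map_zero] at hf'
    have hterm : ∀ i, coeffMap φ (Polynomial.aeval (jqModC (ZMod ℓ)) (f i) *
        coeffMap (Int.castRingHom (ZMod ℓ)) (y i)) =
        evk K ((f i).map φ) * coeffMap (Int.castRingHom K) (y i) := by
      intro i
      rw [map_mul, coeffMap_aeval_jqModC, coeffMap_coeffMap]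
      congr 1
      exact coeffMap_congr (RingHom.ext_int _ _) _
    simp only [hterm] at hf'
    rw [Fintype.linearIndependent_iff] at hind
    have := hind (fun i => ⟨_, evk_mem_jField K ((f i).map φ)⟩) hf'
    intro i
    have hi : evk K ((f i).map φ) = 0 := by
      have h0 := congrArg Subtype.val (this i)
      simpa using h0
    have hzero : (f i).map φ = 0 :=
      evk_injective K (by rw [hi, map_zero])
    exact (Polynomial.map_eq_zero_iff hφinj).mp hzero

end Fermat.Agent.S28.H145

end
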