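import Mathlib.NumberTheory.ModularForms.CongruenceSubgroups
import Mathlib.Data.ZMod.Basic
import Mathlib.Tactic

/-!
# A group lemma for `Γ₀(N)` (piece (Grp) of the S28 plan)

If a subgroup `D ≤ SL(2,ℤ)` contains `T` and, for every prime `p ∣ N`, is not contained in
`Γ₀(p)`, then `D · Γ₀(N) = SL(2,ℤ)`, i.e. `D` acts transitively on `SL(2,ℤ) ⧸ Γ₀(N)`.
-/

namespace Fermat.Agent.S28.H145

open Matrix Matrix.SpecialLinearGroup CongruenceSubgroup ModularGroup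

open scoped MatrixGroups

/-- Membership in `Γ₀(N)` as a divisibility statement. -/
theorem mem_Gamma0_iff_dvd (N : ℕ) (g : SL(2, ℤ)) : g ∈ Gamma0 N ↔ (N : ℤ) ∣ g 1 0 := by
  rw [Gamma0_mem, ZMod.intCast_zmod_eq_zero_iff_dvd]

theorem mul_apply_one_zero (d g : SL(2, ℤ)) :
    (d * g) 1 0 = d 1 0 * g 0 0 + d 1 1 * g 1 0 := by
  simp [Matrix.mul_apply, Fin.sum_univ_two]

theorem det_eq_one_expl (g : SL(2, ℤ)) : g 0 0 * g 1 1 - g 0 1 * g 1 0 = 1 := by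
  have h := g.det_coe
  rw [Matrix.det_fin_two] at h
  exact h

theorem T_zpow_apply (n : ℤ) :
    (T ^ n) 0 0 = 1 ∧ (T ^ n) 0 1 = n ∧ (T ^ n) 1 0 = 0 ∧ (T ^ n) 1 1 = 1 := by
  have h := coe_T_zpow n
  refine ⟨?_, ?_, ?_, ?_⟩ <;> simp [h]

theorem T_zpow_mem_Gamma0 (N : ℕ) (n : ℤ) : T ^ n ∈ Gamma0 N := by
  rw [mem_Gamma0_iff_dvd, (T_zpow_apply n).2.2.1]
  exact dvd_zero _

theorem T_mem_Gamma0 (N : ℕ) : T ∈ Gamma0 N := by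
  have h := T_zpow_mem_Gamma0 N 1
  rwa [zpow_one] at h

/-- Solving a linear congruence modulo a prime. -/
theorem exists_int_dvd_add_mul {p : ℕ} (hp : p.Prime) {x : ℤ} (hx : ¬ (p : ℤ) ∣ x) (y : ℤ) :
    ∃ n : ℤ, (p : ℤ) ∣ y + n * x := by
  have hp' : Prime (p : ℤ) := Nat.prime_iff_prime_int.mp hp
  have hcop : IsCoprime (p : ℤ) x := (Prime.coprime_iff_not_dvd hp').mpr hx
  obtain ⟨u, v, huv⟩ := hcop
  refine ⟨-(v * y), ⟨u * y, ?_⟩⟩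
  linear_combination (-y) * huv

/-- Entries of `d * T ^ n`. -/
theorem mul_T_zpow_apply (d : SL(2, ℤ)) (n : ℤ) :
    (d * T ^ n) 1 0 = d 1 0 ∧ (d * T ^ n) 1 1 = d 1 0 * n + d 1 1 := by
  have h := coe_T_zpow n
  constructor <;> simp [Matrix.mul_apply, Fin.sum_univ_two, h]

/-- **Prime step.** A subgroup containing `T` and an element outside `Γ₀(p)` is transitive on
`SL(2,ℤ) ⧸ Γ₀(p)`. -/
theorem prime_step {p : ℕ} (hp : p.Prime) (D : Subgroup SL(2, ℤ)) (hT : T ∈ D)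
    {d₀ : SL(2, ℤ)} (hd₀ : d₀ ∈ D) (hd₀p : d₀ ∉ Gamma0 p) (g : SL(2, ℤ)) :
    ∃ d ∈ D, d * g ∈ Gamma0 p := by
  by_cases hc : (p : ℤ) ∣ g 1 0
  · exact ⟨1, D.one_mem, by rwa [one_mul, mem_Gamma0_iff_dvd]⟩
  · rw [mem_Gamma0_iff_dvd] at hd₀p
    have hp' : Prime (p : ℤ) := Nat.prime_iff_prime_int.mp hp
    have hx : ¬ (p : ℤ) ∣ d₀ 1 0 * g 1 0 := fun h =>
      (hp'.dvd_or_dvd h).elim hd₀p hc
    obtain ⟨n, hn⟩ := exists_int_dvd_add_mul hp hx (d₀ 1 0 * g 0 0 + d₀ 1 1 * g 1 0)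
    refine ⟨d₀ * T ^ n, D.mul_mem hd₀ (D.zpow_mem hT n), ?_⟩
    rw [mem_Gamma0_iff_dvd, mul_apply_one_zero, (mul_T_zpow_apply d₀ n).1,
      (mul_T_zpow_apply d₀ n).2]
    convert hn using 1
    ring

/-- The lower-left entry of `d⁻¹ * T ^ n * d`. -/
theorem conj_T_zpow_apply_one_zero (d : SL(2, ℤ)) (n : ℤ) :
    (d⁻¹ * T ^ n * d) 1 0 = -(n * d 1 0 ^ 2) := by
  simp only [Matrix.SpecialLinearGroup.coe_mul, Matrix.mul_apply, Fin.sum_univ_two, coe_T_zpow,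
    Matrix.SpecialLinearGroup.coe_inv, Matrix.adjugate_fin_two]
  simp
  ring

theorem Gamma0_mul_of_coprime {M p : ℕ} (h : Nat.Coprime M p) {g : SL(2, ℤ)}
    (hM : g ∈ Gamma0 M) (hp : g ∈ Gamma0 p) : g ∈ Gamma0 (M * p) := by
  rw [mem_Gamma0_iff_dvd] at hM hp ⊢
  have hcop : IsCoprime (M : ℤ) (p : ℤ) := Nat.isCoprime_iff_coprime.mpr h
  rw [Nat.cast_mul]
  exact hcop.mul_dvd hM hp

/-- **Coprime step.** -/
theorem coprime_step {M p : ℕ} (hp : p.Prime) (hMp : ¬ p ∣ M) (D : Subgroup SL(2, ℤ))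
    (hT : T ∈ D) {d₀ : SL(2, ℤ)} (hd₀ : d₀ ∈ D) (hd₀p : d₀ ∉ Gamma0 p)
    (hM : ∀ g : SL(2, ℤ), ∃ d ∈ D, d * g ∈ Gamma0 M) (g : SL(2, ℤ)) :
    ∃ d ∈ D, d * g ∈ Gamma0 (M * p) := by
  have hp' : Prime (p : ℤ) := Nat.prime_iff_prime_int.mp hp
  set e : SL(2, ℤ) := d₀⁻¹ * T ^ (M : ℤ) * d₀ with he
  have heD : e ∈ D := D.mul_mem (D.mul_mem (D.inv_mem hd₀) (D.zpow_mem hT _)) hd₀
  have he10 : e 1 0 = -((M : ℤ) * d₀ 1 0 ^ 2) := conj_T_zpow_apply_one_zero d₀ M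
  have heM : e ∈ Gamma0 M := by
    rw [mem_Gamma0_iff_dvd, he10]
    exact (Dvd.intro _ rfl).neg_right
  have hep : e ∉ Gamma0 p := by
    rw [mem_Gamma0_iff_dvd] at hd₀p ⊢
    rw [he10, dvd_neg]
    intro h
    rcases hp'.dvd_or_dvd h with h1 | h1
    · exact hMp (by exact_mod_cast h1)
    · exact hd₀p (hp'.dvd_of_dvd_pow h1)
  obtain ⟨d₁, hd₁, hd₁g⟩ := hM g
  obtain ⟨d', hd', hd'g⟩ := prime_step hp (D ⊓ Gamma0 M)
    (Subgroup.mem_inf.mpr ⟨hT, T_mem_Gamma0 M⟩) (Subgroup.mem_inf.mpr ⟨heD, heM⟩) hep (d₁ * g)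
  rw [Subgroup.mem_inf] at hd'
  refine ⟨d' * d₁, D.mul_mem hd'.1 hd₁, ?_⟩
  rw [mul_assoc]
  have hcop : Nat.Coprime M p := (Nat.Coprime.symm ((Nat.Prime.coprime_iff_not_dvd hp).mpr hMp))
  exact Gamma0_mul_of_coprime hcop ((Gamma0 M).mul_mem hd'.2 hd₁g) hd'g

/-- The lower-left entry of `S⁻¹ * T ^ n * S * γ`. -/
theorem S_conj_T_zpow_mul_apply_one_zero (γ : SL(2, ℤ)) (n : ℤ) :
    (S⁻¹ * T ^ n * S * γ) 1 0 = γ 1 0 - n * γ 0 0 := by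
  simp only [Matrix.SpecialLinearGroup.coe_mul, Matrix.mul_apply, Fin.sum_univ_two, coe_T_zpow,
    Matrix.SpecialLinearGroup.coe_inv, Matrix.adjugate_fin_two, coe_S]
  simp
  ring

/-- **Non-coprime step.** -/
theorem dvd_step {M p : ℕ} (hp : p.Prime) (hpM : p ∣ M) (D : Subgroup SL(2, ℤ))
    (hT : T ∈ D) (hM : ∀ g : SL(2, ℤ), ∃ d ∈ D, d * g ∈ Gamma0 M) (g : SL(2, ℤ)) :
    ∃ d ∈ D, d * g ∈ Gamma0 (M * p) := by
  have hp' : Prime (p : ℤ) := Nat.prime_iff_prime_int.mp hp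
  -- Step 1: every coset is in the `D`-orbit of the coset of `S`.
  have step1 : ∀ g : SL(2, ℤ), ∃ d ∈ D, S⁻¹ * d * g ∈ Gamma0 (M * p) := by
    intro g
    obtain ⟨dg, hdg, hdgg⟩ := hM g
    obtain ⟨dS, hdS, hdSS⟩ := hM S
    set γ : SL(2, ℤ) := (dS * S)⁻¹ * (dg * g) with hγ
    have hγM : γ ∈ Gamma0 M := (Gamma0 M).mul_mem ((Gamma0 M).inv_mem hdSS) hdgg
    have hγM' := (mem_Gamma0_iff_dvd M γ).mp hγM
    obtain ⟨c', hc'⟩ := hγM'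
    have hdet := det_eq_one_expl γ
    have hγ00 : ¬ (p : ℤ) ∣ γ 0 0 := by
      intro h
      have h10 : (p : ℤ) ∣ γ 1 0 := by
        rw [hc']
        exact Dvd.dvd.mul_right (by exact_mod_cast hpM) _
      have : (p : ℤ) ∣ 1 := by
        rw [← hdet]
        exact dvd_sub (Dvd.dvd.mul_right h _) (Dvd.dvd.mul_left h10 _)
      exact hp'.not_dvd_one this
    obtain ⟨n, hn⟩ := exists_int_dvd_add_mul hp hγ00 c'
    refine ⟨T ^ ((M : ℤ) * (-n)) * dS⁻¹ * dg,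
      D.mul_mem (D.mul_mem (D.zpow_mem hT _) (D.inv_mem hdS)) hdg, ?_⟩
    have hgrp : S⁻¹ * (T ^ ((M : ℤ) * (-n)) * dS⁻¹ * dg) * g =
        S⁻¹ * T ^ ((M : ℤ) * (-n)) * S * γ := by
      rw [hγ]; group
    rw [hgrp, mem_Gamma0_iff_dvd, S_conj_T_zpow_mul_apply_one_zero, hc', Nat.cast_mul]
    have : (M : ℤ) * c' - (M : ℤ) * (-n) * γ 0 0 = (M : ℤ) * (c' + n * γ 0 0) := by ring
    rw [this]
    exact mul_dvd_mul_left _ hn
  obtain ⟨d₁, hd₁, h1⟩ := step1 1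
  obtain ⟨d, hd, h2⟩ := step1 g
  refine ⟨d₁⁻¹ * d, D.mul_mem (D.inv_mem hd₁) hd, ?_⟩
  have : d₁⁻¹ * d * g = (S⁻¹ * d₁ * 1)⁻¹ * (S⁻¹ * d * g) := by group
  rw [this]
  exact (Gamma0 (M * p)).mul_mem ((Gamma0 (M * p)).inv_mem h1) h2

/-- **Group lemma (Grp).** If a subgroup `D` of `SL(2,ℤ)` contains `T` and is not contained in
`Γ₀(p)` for any prime `p ∣ N`, then `D · Γ₀(N) = SL(2,ℤ)`. -/
theorem exists_mul_mem_Gamma0 (N : ℕ) (hN : N ≠ 0) (D : Subgroup SL(2, ℤ)) (hT : T ∈ D)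
    (hD : ∀ p : ℕ, p.Prime → p ∣ N → ∃ d ∈ D, d ∉ Gamma0 p) (g : SL(2, ℤ)) :
    ∃ d ∈ D, d * g ∈ Gamma0 N := by
  induction N using Nat.strong_induction_on generalizing g with
  | _ N ih =>
    by_cases h1 : N = 1
    · subst h1
      exact ⟨1, D.one_mem, by rw [mem_Gamma0_iff_dvd]; simp⟩
    · have hp : (N.minFac).Prime := Nat.minFac_prime h1
      have hpN : N.minFac ∣ N := Nat.minFac_dvd N
      obtain ⟨M, hM⟩ := hpN
      have hM0 : M ≠ 0 := by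
        rintro rfl
        exact hN (by simpa using hM)
      have hMlt : M < N := by
        have h2 : 2 ≤ N.minFac := hp.two_le
        have hMpos : 0 < M := Nat.pos_of_ne_zero hM0
        calc M < N.minFac * M := by nlinarith
          _ = N := hM.symm
      have hNeq : N = M * N.minFac := by rw [mul_comm]; exact hM
      have ihM : ∀ g : SL(2, ℤ), ∃ d ∈ D, d * g ∈ Gamma0 M := fun g =>
        ih M hMlt hM0 (fun q hq hqM => hD q hq (hNeq ▸ Dvd.dvd.mul_right hqM _)) g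
      obtain ⟨d₀, hd₀, hd₀p⟩ := hD N.minFac hp (Nat.minFac_dvd N)
      rw [hNeq]
      by_cases hpM : N.minFac ∣ M
      · exact dvd_step hp hpM D hT ihM g
      · exact coprime_step hp hpM D hT hd₀ hd₀p ihM g

/-- Right-handed variant of the group lemma. -/
theorem exists_mul_mem_Gamma0' (N : ℕ) (hN : N ≠ 0) (D : Subgroup SL(2, ℤ)) (hT : T ∈ D)
    (hD : ∀ p : ℕ, p.Prime → p ∣ N → ∃ d ∈ D, d ∉ Gamma0 p) (g : SL(2, ℤ)) :
    ∃ d ∈ D, g * d ∈ Gamma0 N := by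
  obtain ⟨d, hd, h⟩ := exists_mul_mem_Gamma0 N hN D hT hD g⁻¹
  refine ⟨d⁻¹, D.inv_mem hd, ?_⟩
  have : g * d⁻¹ = (d * g⁻¹)⁻¹ := by group
  rw [this]
  exact (Gamma0 N).inv_mem h

/-- Factorisation form: every `g` is `d * γ` with `d ∈ D`, `γ ∈ Γ₀(N)`. -/
theorem exists_eq_mul_Gamma0 (N : ℕ) (hN : N ≠ 0) (D : Subgroup SL(2, ℤ)) (hT : T ∈ D)
    (hD : ∀ p : ℕ, p.Prime → p ∣ N → ∃ d ∈ D, d ∉ Gamma0 p) (g : SL(2, ℤ)) :
    ∃ d ∈ D, ∃ γ ∈ Gamma0 N, g = d * γ := by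
  obtain ⟨d, hd, h⟩ := exists_mul_mem_Gamma0 N hN D hT hD g
  exact ⟨d⁻¹, D.inv_mem hd, d * g, h, by group⟩

/-- Transitivity form on the coset space `SL(2,ℤ) ⧸ Γ₀(N)`. -/
theorem exists_smul_eq (N : ℕ) (hN : N ≠ 0) (D : Subgroup SL(2, ℤ)) (hT : T ∈ D)
    (hD : ∀ p : ℕ, p.Prime → p ∣ N → ∃ d ∈ D, d ∉ Gamma0 p)
    (x y : SL(2, ℤ) ⧸ Gamma0 N) : ∃ d ∈ D, d • x = y := by
  induction x using QuotientGroup.induction_on with
  | H g =>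
    induction y using QuotientGroup.induction_on with
    | H h =>
      obtain ⟨d₁, hd₁, γ₁, hγ₁, hg⟩ := exists_eq_mul_Gamma0 N hN D hT hD g
      obtain ⟨d₂, hd₂, γ₂, hγ₂, hh⟩ := exists_eq_mul_Gamma0 N hN D hT hD h
      refine ⟨d₂ * d₁⁻¹, D.mul_mem hd₂ (D.inv_mem hd₁), ?_⟩
      rw [MulAction.Quotient.smul_mk, QuotientGroup.eq, smul_eq_mul]
      have : (d₂ * d₁⁻¹ * g)⁻¹ * h = γ₁⁻¹ * γ₂ := by
        rw [hg, hh]; group
      rw [this]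
      exact (Gamma0 N).mul_mem ((Gamma0 N).inv_mem hγ₁) hγ₂

end Fermat.Agent.S28.H145
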